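/-
Program G / analytic core (helper22): Eisenstein series with weights on the bottom rows.
`geisSum k w z = ∑ v, w v * (v 0 * z + v 1) ^ (-k)`, `w : (Fin 2 → ℤ) → ℂ` bounded by `1`.
* `geis_summable`: absolutely summable for `3 ≤ k`;
* `geisSum_smul`: `geisSum k w (A • z) = denom A z ^ k * geisSum k (w ∘ (· ᵥ* A⁻¹)) z`;
* `geis_tendsto_axis`: limit along the imaginary axis;
* `geis_isBoundedAtImInfty`: bounded at `i∞` as soon as `w` is invariant under some `T ^ M`.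
Helper lemmas are prefixed `geis`.
-/
import Mathlib

set_option autoImplicit false

namespace Fermat.Agent.G

open UpperHalfPlane EisensteinSeries Matrix ModularForm CongruenceSubgroup Filter Topology
open scoped MatrixGroups

/-- the weighted Eisenstein series -/
noncomputable def geisSum (k : ℤ) (w : (Fin 2 → ℤ) → ℂ) (z : ℍ) : ℂ :=
  ∑' v : Fin 2 → ℤ, w v * eisSummand k v z

theorem geis_norm_le {k : ℤ} {w : (Fin 2 → ℤ) → ℂ} (hw : ∀ v, ‖w v‖ ≤ 1) (v : Fin 2 → ℤ)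
    (z : ℍ) : ‖w v * eisSummand k v z‖ ≤ ‖eisSummand k v z‖ := by
  rw [norm_mul]
  exact mul_le_of_le_one_left (norm_nonneg _) (hw v)

theorem geis_summable {k : ℤ} (hk : 3 ≤ k) {w : (Fin 2 → ℤ) → ℂ} (hw : ∀ v, ‖w v‖ ≤ 1)
    (z : ℍ) : Summable fun v : Fin 2 → ℤ => w v * eisSummand k v z :=
  Summable.of_norm_bounded (summable_norm_eisSummand hk z) (fun v => geis_norm_le hw v z)

/-- right multiplication by `A ∈ SL(2, ℤ)` on `ℤ²` -/
def geisMul (v : Fin 2 → ℤ) (A : SL(2, ℤ)) : Fin 2 → ℤ := v ᵥ* A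

theorem geisMul_one (v : Fin 2 → ℤ) : geisMul v 1 = v := by
  simp [geisMul]

theorem geisMul_mul (v : Fin 2 → ℤ) (A B : SL(2, ℤ)) :
    geisMul (geisMul v A) B = geisMul v (A * B) := by
  simp [geisMul, vecMul_vecMul]

/-- right multiplication by `A ∈ SL(2, ℤ)` as a permutation of `ℤ²` -/
def geisEquiv (A : SL(2, ℤ)) : (Fin 2 → ℤ) ≃ (Fin 2 → ℤ) where
  toFun v := geisMul v A
  invFun v := geisMul v A⁻¹
  left_inv v := by
    show geisMul (geisMul v A) A⁻¹ = v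
    rw [geisMul_mul, mul_inv_cancel, geisMul_one]
  right_inv v := by
    show geisMul (geisMul v A⁻¹) A = v
    rw [geisMul_mul, inv_mul_cancel, geisMul_one]

theorem geisEquiv_apply (A : SL(2, ℤ)) (v : Fin 2 → ℤ) : geisEquiv A v = geisMul v A := rfl

/-- the transformation law -/
theorem geisSum_smul (k : ℤ) (w : (Fin 2 → ℤ) → ℂ) (A : SL(2, ℤ)) (z : ℍ) :
    geisSum k w (A • z) = denom A z ^ k * geisSum k (fun v => w (geisMul v A⁻¹)) z := by
  have h1 : geisSum k (fun v => w (geisMul v A⁻¹)) z =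
      ∑' v : Fin 2 → ℤ, w v * eisSummand k (geisMul v A) z := by
    unfold geisSum
    rw [← (geisEquiv A).tsum_eq]
    refine tsum_congr fun v => ?_
    rw [geisEquiv_apply]
    show w (geisMul (geisMul v A) A⁻¹) * _ = _
    rw [geisMul_mul, mul_inv_cancel, geisMul_one]
  rw [h1, ← tsum_mul_left]
  unfold geisSum
  refine tsum_congr fun v => ?_
  rw [eisSummand_SL2_apply]
  show w v * (denom A z ^ k * eisSummand k (v ᵥ* A) z) =
    denom A z ^ k * (w v * eisSummand k (v ᵥ* A) z)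
  ring

/-! ### the value at `i∞` -/

/-- the constant term: the sum of the terms with `v 0 = 0` -/
noncomputable def geisConst (k : ℤ) (w : (Fin 2 → ℤ) → ℂ) : ℂ :=
  ∑' v : Fin 2 → ℤ, if v 0 = 0 then w v * ((v 1 : ℤ) : ℂ) ^ (-k) else 0

theorem geis_eisSummand_of_zero (k : ℤ) {v : Fin 2 → ℤ} (hv : v 0 = 0) (z : ℍ) :
    eisSummand k v z = ((v 1 : ℤ) : ℂ) ^ (-k) := by
  simp [eisSummand, hv]

theorem geis_norm_eisSummand_le {k : ℤ} (hk : 0 ≤ k) {v : Fin 2 → ℤ} (hv : v 0 ≠ 0) (z : ℍ) :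
    ‖eisSummand k v z‖ ≤ z.im ^ (-k) := by
  have h1 : z.im ≤ ‖((v 0 : ℤ) : ℂ) * (z : ℂ) + ((v 1 : ℤ) : ℂ)‖ := by
    have h2 := Complex.abs_im_le_norm (((v 0 : ℤ) : ℂ) * (z : ℂ) + ((v 1 : ℤ) : ℂ))
    have h3 : (((v 0 : ℤ) : ℂ) * (z : ℂ) + ((v 1 : ℤ) : ℂ)).im = (v 0 : ℝ) * z.im := by
      simp
    rw [h3, abs_mul, abs_of_pos z.im_pos] at h2
    have h4 : (1 : ℝ) ≤ |((v 0 : ℤ) : ℝ)| := by
      have : (1 : ℤ) ≤ |v 0| := Int.one_le_abs hv
      exact_mod_cast this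
    calc z.im = 1 * z.im := (one_mul _).symm
      _ ≤ |((v 0 : ℤ) : ℝ)| * z.im := mul_le_mul_of_nonneg_right h4 z.im_pos.le
      _ ≤ _ := h2
  unfold eisSummand
  rw [norm_zpow]
  lift k to ℕ using hk
  rw [_root_.zpow_neg, _root_.zpow_neg, zpow_natCast, zpow_natCast]
  exact inv_anti₀ (pow_pos z.im_pos _) (pow_le_pow_left₀ z.im_pos.le h1 _)

theorem geis_tendsto_im_zpow {k : ℤ} (hk : 0 < k) :
    Tendsto (fun z : ℍ => z.im ^ (-k)) atImInfty (𝓝 0) :=
  (tendsto_zpow_atTop_zero (neg_lt_zero.2 hk)).comp tendsto_comap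

theorem geis_tendsto_term {k : ℤ} (hk : 0 < k) (w : (Fin 2 → ℤ) → ℂ) (v : Fin 2 → ℤ) :
    Tendsto (fun z : ℍ => w v * eisSummand k v z) atImInfty
      (𝓝 (if v 0 = 0 then w v * ((v 1 : ℤ) : ℂ) ^ (-k) else 0)) := by
  by_cases hv : v 0 = 0
  · rw [if_pos hv]
    refine tendsto_const_nhds.congr fun z => ?_
    rw [geis_eisSummand_of_zero k hv]
  · rw [if_neg hv]
    have h0 : Tendsto (fun z : ℍ => eisSummand k v z) atImInfty (𝓝 0) :=
      squeeze_zero_norm (fun z => geis_norm_eisSummand_le hk.le hv z) (geis_tendsto_im_zpow hk)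
    simpa using h0.const_mul (w v)

/-- uniform convergence to the constant term in vertical strips -/
theorem geis_tendsto_strip {k : ℤ} (hk : 3 ≤ k) {w : (Fin 2 → ℤ) → ℂ} (hw : ∀ v, ‖w v‖ ≤ 1)
    (M : ℝ) :
    Tendsto (geisSum k w) (atImInfty ⊓ 𝓟 {z : ℍ | |z.re| ≤ M}) (𝓝 (geisConst k w)) := by
  have hk' : (2 : ℝ) < k := by norm_cast
  have hk0 : (0 : ℝ) ≤ k := by positivity
  refine tendsto_tsum_of_dominated_convergence
    (bound := fun v => r ⟨⟨M, 1⟩, one_pos⟩ ^ (-(k : ℝ)) * ‖v‖ ^ (-(k : ℝ)))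
    ((summable_one_div_norm_rpow hk').mul_left _)
    (fun v => (geis_tendsto_term (by omega) w v).mono_left inf_le_left) ?_
  have h1 : {z : ℍ | 1 ≤ z.im} ∈ atImInfty := (atImInfty_mem _).2 ⟨1, fun z hz => hz⟩
  have h2 : {z : ℍ | |z.re| ≤ M} ∈ 𝓟 {z : ℍ | |z.re| ≤ M} := mem_principal_self _
  filter_upwards [mem_inf_of_left h1, mem_inf_of_right h2] with z hz1 hz2 v
  refine (geis_norm_le hw v z).trans ?_
  have hz : z ∈ verticalStrip M 1 := ⟨hz2, hz1⟩
  simp_rw [eisSummand, norm_zpow]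
  exact_mod_cast summand_bound_of_mem_verticalStrip hk0 v one_pos hz

/-! ### weights which are semi-invariant under a matrix -/

theorem geisSum_const_mul (k : ℤ) (w : (Fin 2 → ℤ) → ℂ) (c : ℂ) (z : ℍ) :
    geisSum k (fun v => c * w v) z = c * geisSum k w z := by
  unfold geisSum
  rw [← tsum_mul_left]
  exact tsum_congr fun v => mul_assoc _ _ _

/-- the transformation law for a semi-invariant weight -/
theorem geisSum_smul_of_eq (k : ℤ) {w : (Fin 2 → ℤ) → ℂ} {A : SL(2, ℤ)} {c : ℂ}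
    (h : ∀ v, w (geisMul v A⁻¹) = c * w v) (z : ℍ) :
    geisSum k w (A • z) = denom A z ^ k * (c * geisSum k w z) := by
  rw [geisSum_smul, ← geisSum_const_mul k w c z]
  have h' : (fun v => w (geisMul v A⁻¹)) = fun v => c * w v := funext h
  rw [h']

/-- the slash action on weighted Eisenstein series -/
theorem geisSum_slash (k : ℤ) (w : (Fin 2 → ℤ) → ℂ) (A : SL(2, ℤ)) :
    (geisSum k w) ∣[k] A = geisSum k (fun v => w (geisMul v A⁻¹)) := by
  funext z
  rw [SL_slash_apply, geisSum_smul, mul_comm, ← mul_assoc, ← zpow_add₀ (denom_ne_zero A z),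
    neg_add_cancel, zpow_zero, one_mul]

/-- the stabiliser of a weight -/
def geisStab (w : (Fin 2 → ℤ) → ℂ) : Subgroup SL(2, ℤ) where
  carrier := {A | ∀ v, w (geisMul v A) = w v}
  mul_mem' := by
    intro A B hA hB v
    rw [← geisMul_mul, hB, hA]
  one_mem' := fun v => by rw [geisMul_one]
  inv_mem' := by
    intro A hA v
    have := hA (geisMul v A⁻¹)
    rw [geisMul_mul, inv_mul_cancel, geisMul_one] at this
    exact this.symm

theorem mem_geisStab {w : (Fin 2 → ℤ) → ℂ} {A : SL(2, ℤ)} :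
    A ∈ geisStab w ↔ ∀ v, w (geisMul v A) = w v := Iff.rfl

theorem geisSum_smul_of_mem_stab (k : ℤ) {w : (Fin 2 → ℤ) → ℂ} {A : SL(2, ℤ)}
    (hA : A ∈ geisStab w) (z : ℍ) : geisSum k w (A • z) = denom A z ^ k * geisSum k w z := by
  have h : ∀ v, w (geisMul v A⁻¹) = 1 * w v := fun v => by
    rw [one_mul]
    exact (geisStab w).inv_mem hA v
  rw [geisSum_smul_of_eq k h, one_mul]

theorem geis_denom_T_zpow (n : ℤ) (z : ℍ) : denom (ModularGroup.T ^ n : SL(2, ℤ)) z = 1 := by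
  rw [ModularGroup.denom_apply, ModularGroup.coe_T_zpow]
  simp

/-- the value at `i∞` of a weighted Eisenstein series with a periodic weight -/
theorem geis_tendsto {k : ℤ} (hk : 3 ≤ k) {w : (Fin 2 → ℤ) → ℂ} (hw : ∀ v, ‖w v‖ ≤ 1)
    {M : ℕ} (hM : 0 < M) (hper : ModularGroup.T ^ (M : ℤ) ∈ geisStab w) :
    Tendsto (geisSum k w) atImInfty (𝓝 (geisConst k w)) := by
  intro s hs
  have h1 := geis_tendsto_strip hk hw (M : ℝ) hs
  rw [mem_map, mem_inf_principal, atImInfty_mem] at h1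
  obtain ⟨A, hA⟩ := h1
  rw [mem_map, atImInfty_mem]
  refine ⟨A, fun z hz => ?_⟩
  obtain ⟨n, hn⟩ := ModularGroup_T_zpow_mem_verticalStrip z hM
  have h2 : ModularGroup.T ^ ((M : ℤ) * n) ∈ geisStab w := by
    rw [_root_.zpow_mul]
    exact (geisStab w).zpow_mem hper n
  have h3 := hA (ModularGroup.T ^ ((M : ℤ) * n) • z) (hz.trans hn.2) hn.1
  rw [Set.mem_preimage, geisSum_smul_of_mem_stab k h2, geis_denom_T_zpow, _root_.one_zpow, one_mul]
    at h3
  exact h3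

theorem geis_isBoundedAtImInfty {k : ℤ} (hk : 3 ≤ k) {w : (Fin 2 → ℤ) → ℂ}
    (hw : ∀ v, ‖w v‖ ≤ 1) {M : ℕ} (hM : 0 < M) (hper : ModularGroup.T ^ (M : ℤ) ∈ geisStab w) :
    IsBoundedAtImInfty (geisSum k w) :=
  (geis_tendsto hk hw hM hper).isBigO_one ℝ

end Fermat.Agent.G
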