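/-
Program G / analytic core (helper22): the Eisenstein series `E_χ` of a subgroup `Γ ≤ SL(2, ℤ)` with
a unitary character `χ` which is trivial on the stabiliser of `∞`:
`E_χ(z) = ∑_{γ ∈ Γ_∞ \ Γ} χ(γ)⁻¹ (c z + d)^{-k}` (`= geisSum k (geisW χ)`, the weight is supported on
the bottom rows of `Γ`).
* `geisE_smul`     : `E_χ (δ • z) = (c z + d)^k * (χ δ * E_χ z)` for `δ ∈ Γ`;
* `geisE_tendsto`  : `E_χ → 1 + [-1 ∈ Γ] (-1)^k` at `i∞`, in particular `E_χ ≠ 0` for even `k`;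
* `geisE_mdifferentiable`, `geisE_slash_isBoundedAtImInfty`.
-/
import Fermat.Agent.G.Eis.Holo

set_option autoImplicit false

namespace Fermat.Agent.G

open UpperHalfPlane EisensteinSeries Matrix ModularForm CongruenceSubgroup Filter Topology
open scoped MatrixGroups Manifold

/-- the bottom row -/
def geisRow (g : SL(2, ℤ)) : Fin 2 → ℤ := (g : Matrix (Fin 2) (Fin 2) ℤ) 1

theorem geisRow_mul (g h : SL(2, ℤ)) : geisRow (g * h) = geisMul (geisRow g) h := rfl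

theorem geisRow_one : geisRow 1 = ![0, 1] := by
  funext i
  fin_cases i
  · show (1 : Matrix (Fin 2) (Fin 2) ℤ) 1 0 = 0
    simp
  · show (1 : Matrix (Fin 2) (Fin 2) ℤ) 1 1 = 1
    simp

section Char

variable {Γ : Subgroup SL(2, ℤ)} (χ : ↥Γ →* ℂˣ)

/-- the weight attached to a character: `χ(γ)⁻¹` on the bottom row of `γ ∈ Γ`, `0` elsewhere -/
noncomputable def geisW (v : Fin 2 → ℤ) : ℂ := by
  classical
  exact if h : ∃ g : ↥Γ, geisRow (g : SL(2, ℤ)) = v then ((χ h.choose)⁻¹ : ℂˣ) else 0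

variable (hχ : ∀ g : ↥Γ, ((g : SL(2, ℤ)) : Matrix (Fin 2) (Fin 2) ℤ) 1 0 = 0 → χ g = 1)

include hχ in
theorem geis_chi_eq_of_row_eq {g g' : ↥Γ} (h : geisRow (g : SL(2, ℤ)) = geisRow (g' : SL(2, ℤ))) :
    χ g = χ g' := by
  have h1 : geisRow ((g' * g⁻¹ : ↥Γ) : SL(2, ℤ)) = ![0, 1] := by
    rw [Subgroup.coe_mul, geisRow_mul, ← h, ← geisRow_mul, Subgroup.coe_inv, mul_inv_cancel,
      geisRow_one]
  have h2 : χ (g' * g⁻¹) = 1 := by
    apply hχ
    have := congrFun h1 0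
    simpa [geisRow] using this
  rw [map_mul, map_inv, mul_inv_eq_one] at h2
  exact h2.symm

include hχ in
theorem geisW_row (g : ↥Γ) : geisW χ (geisRow (g : SL(2, ℤ))) = ((χ g)⁻¹ : ℂˣ) := by
  classical
  have h : ∃ g' : ↥Γ, geisRow (g' : SL(2, ℤ)) = geisRow (g : SL(2, ℤ)) := ⟨g, rfl⟩
  unfold geisW
  rw [dif_pos h, geis_chi_eq_of_row_eq χ hχ h.choose_spec]

theorem geisW_of_not_row {v : Fin 2 → ℤ} (h : ¬ ∃ g : ↥Γ, geisRow (g : SL(2, ℤ)) = v) :
    geisW χ v = 0 := by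
  classical
  unfold geisW
  rw [dif_neg h]

include hχ in
/-- equivariance of the weight -/
theorem geisW_mul (δ : ↥Γ) (v : Fin 2 → ℤ) :
    geisW χ (geisMul v (δ : SL(2, ℤ))) = ((χ δ)⁻¹ : ℂˣ) * geisW χ v := by
  by_cases h : ∃ g : ↥Γ, geisRow (g : SL(2, ℤ)) = v
  · obtain ⟨g, rfl⟩ := h
    rw [← geisRow_mul, ← Subgroup.coe_mul, geisW_row χ hχ, geisW_row χ hχ, map_mul, _root_.mul_inv_rev,
      Units.val_mul]
  · have h' : ¬ ∃ g : ↥Γ, geisRow (g : SL(2, ℤ)) = geisMul v (δ : SL(2, ℤ)) := by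
      rintro ⟨g, hg⟩
      apply h
      refine ⟨g * δ⁻¹, ?_⟩
      rw [Subgroup.coe_mul, geisRow_mul, hg, geisMul_mul, Subgroup.coe_inv, mul_inv_cancel,
        geisMul_one]
    rw [geisW_of_not_row χ h, geisW_of_not_row χ h', mul_zero]

variable (hu : ∀ g : ↥Γ, ‖((χ g : ℂˣ) : ℂ)‖ = 1)

include hu in
theorem geisW_norm_le (v : Fin 2 → ℤ) : ‖geisW χ v‖ ≤ 1 := by
  classical
  unfold geisW
  split_ifs with h
  · rw [Units.val_inv_eq_inv_val, norm_inv, hu, inv_one]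
  · rw [norm_zero]
    exact zero_le_one

/-- the Eisenstein series with character -/
noncomputable def geisE (k : ℤ) : ℍ → ℂ := geisSum k (geisW χ)

include hχ in
/-- the transformation law of `E_χ` -/
theorem geisE_smul (k : ℤ) (δ : ↥Γ) (z : ℍ) :
    geisE χ k ((δ : SL(2, ℤ)) • z) =
      denom (δ : SL(2, ℤ)) z ^ k * (((χ δ : ℂˣ) : ℂ) * geisE χ k z) := by
  refine geisSum_smul_of_eq k (fun v => ?_) z
  have := geisW_mul χ hχ δ⁻¹ v
  rw [Subgroup.coe_inv, map_inv, inv_inv] at this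
  exact this

include hu in
theorem geisE_mdifferentiable {k : ℤ} (hk : 3 ≤ k) : MDiff (geisE χ k) :=
  geisSum_mdifferentiable hk (geisW_norm_le χ hu)

/-! ### the cusps -/

include hχ in
/-- conjugates of translations in `Γ` on which `χ` is trivial stabilise the slashed weight -/
theorem geis_mem_stab_slash (σ : SL(2, ℤ)) (n : ℤ)
    (h : σ * ModularGroup.T ^ n * σ⁻¹ ∈ Γ) (h1 : χ ⟨_, h⟩ = 1) :
    ModularGroup.T ^ n ∈ geisStab (fun v => geisW χ (geisMul v σ⁻¹)) := by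
  intro v
  show geisW χ (geisMul (geisMul v (ModularGroup.T ^ n)) σ⁻¹) = geisW χ (geisMul v σ⁻¹)
  have h2 := geisW_mul χ hχ ⟨_, h⟩ (geisMul v σ⁻¹)
  rw [h1, inv_one, Units.val_one, one_mul] at h2
  rw [← h2]
  show _ = geisW χ (geisMul (geisMul v σ⁻¹) (σ * ModularGroup.T ^ n * σ⁻¹))
  rw [geisMul_mul, geisMul_mul]
  congr 2
  group

include hχ hu in
/-- `E_χ` is bounded at every cusp -/
theorem geisE_slash_isBoundedAtImInfty {k : ℤ} (hk : 3 ≤ k) (σ : SL(2, ℤ)) {M : ℕ} (hM : 0 < M)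
    (h : σ * ModularGroup.T ^ (M : ℤ) * σ⁻¹ ∈ Γ) (h1 : χ ⟨_, h⟩ = 1) :
    IsBoundedAtImInfty ((geisE χ k) ∣[k] σ) := by
  unfold geisE
  rw [geisSum_slash]
  exact geis_isBoundedAtImInfty hk (fun v => geisW_norm_le χ hu _) hM
    (geis_mem_stab_slash χ hχ σ M h h1)

include hχ in
theorem geisW_of_zero {v : Fin 2 → ℤ} (hv : v 0 = 0) :
    geisW χ v = 0 ∨ (geisW χ v = 1 ∧ (v = ![0, 1] ∨ v = ![0, -1])) := by
  by_cases h : ∃ g : ↥Γ, geisRow (g : SL(2, ℤ)) = v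
  · right
    obtain ⟨g, rfl⟩ := h
    have hc : ((g : SL(2, ℤ)) : Matrix (Fin 2) (Fin 2) ℤ) 1 0 = 0 := hv
    refine ⟨by rw [geisW_row χ hχ, hχ g hc, inv_one, Units.val_one], ?_⟩
    have hdet := (g : SL(2, ℤ)).det_coe
    rw [Matrix.det_fin_two, hc, mul_zero, sub_zero] at hdet
    rcases Int.eq_one_or_neg_one_of_mul_eq_one' hdet with ⟨-, h2⟩ | ⟨-, h2⟩
    · left
      funext i
      fin_cases i
      · exact hc
      · exact h2
    · right
      funext i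
      fin_cases i
      · exact hc
      · exact h2
  · left
    exact geisW_of_not_row χ h

include hχ in
/-- the constant term of `E_χ` for even `k` is `1` or `2` -/
theorem geisConst_geisW {k : ℤ} (hk : Even k) :
    geisConst k (geisW χ) = 1 ∨ geisConst k (geisW χ) = 2 := by
  classical
  have h01 : geisW χ ![0, 1] = 1 := by
    have := geisW_row χ hχ (1 : ↥Γ)
    rw [Subgroup.coe_one, geisRow_one, map_one, inv_one, Units.val_one] at this
    exact this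
  have hne : (![0, 1] : Fin 2 → ℤ) ≠ ![0, -1] := by
    intro h
    have := congrFun h 1
    simp at this
  unfold geisConst
  rw [tsum_eq_sum (s := {![0, 1], ![0, -1]})]
  · rw [Finset.sum_pair hne]
    have e1 : (if (![0, 1] : Fin 2 → ℤ) 0 = 0 then
        geisW χ ![0, 1] * (((![0, 1] : Fin 2 → ℤ) 1 : ℤ) : ℂ) ^ (-k) else 0) = 1 := by
      simp [h01]
    have e2 : (if (![0, -1] : Fin 2 → ℤ) 0 = 0 then
        geisW χ ![0, -1] * (((![0, -1] : Fin 2 → ℤ) 1 : ℤ) : ℂ) ^ (-k) else 0) =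
        geisW χ ![0, -1] := by
      have : ((-1 : ℂ)) ^ (-k) = 1 := by
        rw [_root_.zpow_neg, hk.neg_one_zpow, inv_one]
      simp [this]
    rw [e1, e2]
    rcases geisW_of_zero χ hχ (v := ![0, -1]) rfl with h | ⟨h, -⟩
    · left
      rw [h, add_zero]
    · right
      rw [h]
      norm_num
  · intro v hv
    by_cases hv0 : v 0 = 0
    · rw [if_pos hv0]
      rcases geisW_of_zero χ hχ hv0 with h | ⟨-, h | h⟩
      · rw [h, zero_mul]
      · exact absurd (by simp [h]) hv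
      · exact absurd (by simp [h]) hv
    · rw [if_neg hv0]

include hχ hu in
/-- `E_χ` tends to `1` or `2` at `i∞`; in particular `E_χ ≠ 0` -/
theorem geisE_tendsto {k : ℤ} (hk : 3 ≤ k) (hk2 : Even k) {M : ℕ} (hM : 0 < M)
    (hT : ModularGroup.T ^ (M : ℤ) ∈ Γ) :
    ∃ c : ℂ, c ≠ 0 ∧ Tendsto (geisE χ k) atImInfty (𝓝 c) := by
  refine ⟨geisConst k (geisW χ), ?_, ?_⟩
  · rcases geisConst_geisW χ hχ hk2 with h | h <;> rw [h] <;> norm_num
  · refine geis_tendsto hk (geisW_norm_le χ hu) hM ?_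
    intro v
    have h1 : χ ⟨_, hT⟩ = 1 := by
      apply hχ
      show ((ModularGroup.T ^ (M : ℤ) : SL(2, ℤ)) : Matrix (Fin 2) (Fin 2) ℤ) 1 0 = 0
      rw [ModularGroup.coe_T_zpow]
      simp
    have h2 := geisW_mul χ hχ ⟨_, hT⟩ v
    rw [h1, inv_one, Units.val_one, one_mul] at h2
    exact h2

include hχ hu in
theorem geisE_ne_zero {k : ℤ} (hk : 3 ≤ k) (hk2 : Even k) {M : ℕ} (hM : 0 < M)
    (hT : ModularGroup.T ^ (M : ℤ) ∈ Γ) : ∃ z : ℍ, geisE χ k z ≠ 0 := by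
  obtain ⟨c, hc, hlim⟩ := geisE_tendsto χ hχ hu hk hk2 hM hT
  by_contra hcon
  push Not at hcon
  have h0 : Tendsto (geisE χ k) atImInfty (𝓝 0) :=
    tendsto_const_nhds.congr fun z => (hcon z).symm
  exact hc (tendsto_nhds_unique hlim h0)

end Char

end Fermat.Agent.G
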